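import Fermat.Agent.DR.ResidualCompare
import Fermat.Agent.CMP.S58Assembly
import Fermat.Agent.DR.S35.Provider
import Fermat.Agent.DR.AllInputs

/-!
# Residual modularity: congruences at almost all primes suffice; removing an auxiliary prime

* `of_almost_all`: a congruence away from finitely many primes implies the congruence at all good
  primes (S29);
* `remove_aux`: if `r ∤ M p Δ` and `a_r(W)² ≢ (r + 1)² mod p` then residual modularity of level
  `M r` implies residual modularity of level `M` (S35).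
-/

set_option autoImplicit false
set_option linter.style.haveILetI false

open WeierstrassCurve WeierstrassCurve.Affine WeierstrassCurve.Affine.Point Polynomial
open IsLocalRing CongruenceSubgroup ModularFormClass
open scoped WeierstrassCurve.Affine

namespace Fermat.Agent.DR.S38

open Fermat.Agent.DR.ResidualCompare Fermat.Agent.CMP Fermat.Agent.CMP.S58Assembly

local notation "Γℚ" => (AlgebraicClosure ℚ ≃ₐ[ℚ] AlgebraicClosure ℚ)

theorem s29Prop : S29Prop := fun hg _ hp _ _ _ φ =>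
  GAL.Final.s29 Fermat.Agent.DR.allInputs hg hp φ

variable {p : ℕ} [hp : Fact p.Prime]

/-- The residual representation `E[p]`, with its Frobenius characteristic polynomials. -/
theorem exists_residual {W : WeierstrassCurve ℤ} (hΔ : W.Δ ≠ 0) :
    ∃ ρ : ResidualGaloisRep (ZMod p), ∀ ℓ : ℕ, ℓ.Prime → ℓ ≠ p → W.IsGoodPrimeFor ℓ →
      ∀ A : ValuationSubring (AlgebraicClosure ℚ), A.LiesOverPrime ℓ → ∀ σ : Γℚ,
        A.IsFrobeniusAt σ ℓ → LinearMap.charpoly (ρ.ρ σ) =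
          X ^ 2 - C ((W.apOfModel ℓ : ℤ) : ZMod p) * X + C ((ℓ : ℕ) : ZMod p) := by
  have hell := EllTorsion.isElliptic_map_of_Δ_ne_zero hΔ
  have hcard := EllTorsion.card_torsionBy_rat (W.map (Int.castRingHom ℚ)) hp.out.ne_zero
  have hker := EllTorsion.galoisRepModuleEnd_factorsThroughFiniteLevel
    (W.map (Int.castRingHom ℚ)) hp.out.ne_zero
  exact ⟨(W.map (Int.castRingHom ℚ)).residualGaloisRepOf p hcard hker,
    fun ℓ hℓ hℓp hW A hA σ hσ => EllRed.residualGaloisRepOf_charpoly_frobenius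
      EllRed.frobCharpolyInputAll hcard hker hℓ hℓp hW A hA hσ⟩

theorem charP_quotient {𝔪 : Ideal (integralClosure ℤ ℂ)} (h𝔪 : 𝔪.IsMaximal)
    (hp𝔪 : (p : integralClosure ℤ ℂ) ∈ 𝔪) : CharP (integralClosure ℤ ℂ ⧸ 𝔪) p := by
  have h0 : ((p : ℕ) : integralClosure ℤ ℂ ⧸ 𝔪) = 0 := by
    rw [← map_natCast (Ideal.Quotient.mk 𝔪), Ideal.Quotient.eq_zero_iff_mem]
    exact hp𝔪
  letI : Field (integralClosure ℤ ℂ ⧸ 𝔪) := Ideal.Quotient.field 𝔪
  exact (CharP.charP_iff_prime_eq_zero hp.out).mpr h0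

/-- **A congruence at almost all primes implies residual modularity.** -/
theorem of_almost_all {W : WeierstrassCurve ℤ} (hΔ : W.Δ ≠ 0) {M : ℕ} (hM : M ≠ 0)
    {f : CuspForm (Gamma0 M) 2} (hf : f.IsNormalizedEigenform) {𝔪 : Ideal (integralClosure ℤ ℂ)}
    (h𝔪 : 𝔪.IsMaximal) (hp𝔪 : (p : integralClosure ℤ ℂ) ∈ 𝔪) (D : Finset ℕ)
    (hcong : ∀ ℓ : ℕ, ℓ.Prime → ℓ ∉ D → ∃ a : integralClosure ℤ ℂ, (a : ℂ) = qCoeff f ℓ ∧
        a - ((W.apOfModel ℓ : ℤ) : integralClosure ℤ ℂ) ∈ 𝔪) :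
    W.IsResiduallyModularOfLevel p M := by
  classical
  refine ⟨f, 𝔪, hf, h𝔪, hp𝔪, ?_⟩
  letI : Field (integralClosure ℤ ℂ ⧸ 𝔪) := Ideal.Quotient.field 𝔪
  have hchar : CharP (integralClosure ℤ ℂ ⧸ 𝔪) p := charP_quotient h𝔪 hp𝔪
  let ψ : ZMod p →+* (integralClosure ℤ ℂ ⧸ 𝔪) := ZMod.castHom (dvd_refl p) _
  obtain ⟨ρ, hatt, -⟩ := s29Prop hf hp.out (Ideal.Quotient.mk 𝔪)
  obtain ⟨ρE, hE⟩ := exists_residual (p := p) hΔ
  have hℓ0 : ∀ ℓ : ℕ, ℓ.Prime → ℓ ≠ p → (ℓ : integralClosure ℤ ℂ ⧸ 𝔪) ≠ 0 := by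
    intro ℓ hℓ hℓp h
    rw [CharP.cast_eq_zero_iff (integralClosure ℤ ℂ ⧸ 𝔪) p] at h
    exact hℓp ((Nat.prime_dvd_prime_iff_eq hp.out hℓ).mp h).symm
  have hcp : ∀ σ : Γℚ, (LinearMap.charpoly (ρ.ρ σ)).map (RingHom.id _) =
      (LinearMap.charpoly (ρE.ρ σ)).map ψ := by
    refine FrobCompare.residual_charpoly_map_eq EllRed.frobDensity _ ψ ρ ρE
      (D ∪ W.Δ.natAbs.primeFactors ∪ M.primeFactors ∪ {p}) ?_
    intro ℓ hℓ hℓS A hA σ hσ
    simp only [Finset.mem_union, Finset.mem_singleton, Nat.mem_primeFactors, not_or, hℓ, true_and,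
      not_and, Ne, not_not] at hℓS
    obtain ⟨⟨⟨h1, h2⟩, h3⟩, h4⟩ := hℓS
    have hgood : W.IsGoodPrimeFor ℓ := fun h => hΔ (Int.natAbs_eq_zero.mp (h2 (Int.natCast_dvd.mp h)))
    have hℓM : ¬ ℓ ∣ M := fun h => hM (h3 h)
    obtain ⟨a, ha, hcpa⟩ := hatt ℓ hℓ hℓM (hℓ0 ℓ hℓ h4) A hA σ hσ
    obtain ⟨a', ha', hmem⟩ := hcong ℓ hℓ h1
    have haa : a = a' := Subtype.ext (ha.trans ha'.symm)
    have hφ := (Ideal.Quotient.eq_zero_iff_mem (I := 𝔪)).mpr hmem
    rw [map_sub, map_intCast, sub_eq_zero] at hφ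
    rw [Polynomial.map_id, hcpa, haa, hφ, hE ℓ hℓ h4 hgood A hA σ hσ, map_quad]
  intro ℓ hℓ hgood hℓM hℓp
  obtain ⟨A, hA⟩ := FrobExists.exists_liesOverPrime (AlgebraicClosure ℚ) hℓ
  obtain ⟨σ, hσ⟩ := FrobExists.exists_isFrobeniusAt A hℓ hA
  obtain ⟨a, ha, hcpa⟩ := hatt ℓ hℓ hℓM (hℓ0 ℓ hℓ hℓp) A hA σ hσ
  refine ⟨a, ha, ?_⟩
  have h1 := hcp σ
  rw [Polynomial.map_id, hcpa, hE ℓ hℓ hℓp hgood A hA σ hσ, map_quad] at h1
  have h2 := eq_of_quad h1
  rw [← Ideal.Quotient.eq_zero_iff_mem, map_sub, map_intCast, sub_eq_zero]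
  exact h2

theorem isMaximal_comap {R : Type} [CommRing R] [Module.Finite ℤ R]
    (j : R →+* integralClosure ℤ ℂ) {𝔪 : Ideal (integralClosure ℤ ℂ)} (h𝔪 : 𝔪.IsMaximal)
    (hp𝔪 : (p : integralClosure ℤ ℂ) ∈ 𝔪) : (𝔪.comap j).IsMaximal := by
  set 𝔫 : Ideal R := 𝔪.comap j with h𝔫
  have hp𝔫 : (p : R) ∈ 𝔫 := by
    rw [Ideal.mem_comap, map_natCast]; exact hp𝔪
  have hprime : 𝔫.IsPrime := Ideal.IsPrime.comap j
  have hdom : IsDomain (R ⧸ 𝔫) := Ideal.Quotient.isDomain 𝔫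
  have hfin : Finite (R ⧸ 𝔫) := by
    have hc : CharP (R ⧸ 𝔫) p := by
      refine (CharP.charP_iff_prime_eq_zero hp.out).mpr ?_
      rw [← map_natCast (Ideal.Quotient.mk 𝔫), Ideal.Quotient.eq_zero_iff_mem]
      exact hp𝔫
    let _ : Algebra (ZMod p) (R ⧸ 𝔫) := ZMod.algebra _ p
    have : Module.Finite ℤ (R ⧸ 𝔫) := inferInstance
    have : IsScalarTower ℤ (ZMod p) (R ⧸ 𝔫) := IsScalarTower.of_algebraMap_eq'
      (RingHom.ext_int _ _)
    have : Module.Finite (ZMod p) (R ⧸ 𝔫) := Module.Finite.of_restrictScalars_finite ℤ _ _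
    exact Module.finite_of_finite (ZMod p)
  have := Finite.isField_of_domain (R ⧸ 𝔫)
  exact Ideal.Quotient.maximal_of_isField _ this

/-- **Removal of an auxiliary prime `r`** with `a_r(W)² ≢ (r + 1)² mod p` (S35). -/
theorem remove_aux {W : WeierstrassCurve ℤ} (hΔ : W.Δ ≠ 0) {M r : ℕ} (hM : M ≠ 0) (hr : r.Prime)
    (hrM : ¬ r ∣ M) (hrp : r ≠ p) (hrW : W.IsGoodPrimeFor r)
    (haux : ((W.apOfModel r : ℤ) : ZMod p) ^ 2 ≠ ((r : ZMod p) + 1) ^ 2)
    (hres : W.IsResiduallyModularOfLevel p (M * r)) : W.IsResiduallyModularOfLevel p M := by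
  classical
  obtain ⟨f, 𝔪, hf, h𝔪, hp𝔪, hcong⟩ := hres
  have hN : M * r ≠ 0 := mul_ne_zero hM hr.ne_zero
  obtain ⟨D, hD, g, hg, hgf⟩ := Oldform.exists_isNewform hN hf
  have hD0 : D ≠ 0 := fun h => hN (by rw [h] at hD; exact zero_dvd_iff.mp hD)
  have : NeZero D := ⟨hD0⟩
  -- the exceptional primes
  let E : Finset ℕ := (M * r).primeFactors ∪ W.Δ.natAbs.primeFactors ∪ {p}
  have hgE : ∀ ℓ : ℕ, ℓ.Prime → ℓ ∉ E → ∃ a : integralClosure ℤ ℂ, (a : ℂ) = qCoeff g ℓ ∧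
      a - ((W.apOfModel ℓ : ℤ) : integralClosure ℤ ℂ) ∈ 𝔪 := by
    intro ℓ hℓ hℓE
    simp only [E, Finset.mem_union, Finset.mem_singleton, Nat.mem_primeFactors, not_or, hℓ,
      true_and, not_and, Ne, not_not] at hℓE
    obtain ⟨⟨h1, h2⟩, h3⟩ := hℓE
    have hgood : W.IsGoodPrimeFor ℓ := fun h => hΔ (Int.natAbs_eq_zero.mp (h2 (Int.natCast_dvd.mp h)))
    have hℓN : ¬ ℓ ∣ M * r := fun h => hN (h1 h)
    rw [hgf ℓ hℓ hℓN]
    exact hcong ℓ hℓ hgood hℓN h3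
  by_cases hrD : r ∣ D
  swap
  · -- `D ∣ M`
    have hDM : D ∣ M :=
      Nat.Coprime.dvd_of_dvd_mul_right ((Nat.Prime.coprime_iff_not_dvd hr).mpr hrD).symm hD
    obtain ⟨f', hf', hf'a⟩ := Oldform.exists_isNormalizedEigenform_of_dvd' hM hDM hg.1
    refine of_almost_all hΔ hM hf' h𝔪 hp𝔪 (E ∪ M.primeFactors) fun ℓ hℓ hℓE => ?_
    rw [Finset.mem_union, not_or] at hℓE
    have hℓM : ¬ ℓ ∣ M := fun h => hℓE.2 (Nat.mem_primeFactors.mpr ⟨hℓ, h, hM⟩)
    rw [hf'a ℓ hℓ hℓM]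
    exact hgE ℓ hℓ hℓE.1
  exfalso
  have hr2D : ¬ r ^ 2 ∣ D := by
    intro h
    have h1 : r * r ∣ M * r := by rw [← sq]; exact h.trans hD
    exact hrM (Nat.dvd_of_mul_dvd_mul_right hr.pos h1)
  let S : Finset ℕ := insert p D.primeFactors
  have hpS : p ∈ S := Finset.mem_insert_self _ _
  have hDS : ∀ q : ℕ, q.Prime → q ∣ D → q ∈ S := fun q hq hqD =>
    Finset.mem_insert_of_mem (Nat.mem_primeFactors.mpr ⟨hq, hqD, hD0⟩)
  let chig := EigenCharOn.eigenCharOn (↑S : Set ℕ) hg.1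
  have hchig : ∀ (ℓ : ℕ) (hℓ : ℓ.Prime) (hℓM : ¬ ℓ ∣ D) (hℓS : ℓ ∉ (↑S : Set ℕ)),
      chig (CuspForm.heckeAlgebra.T hℓ hℓM hℓS) = ModularFormClass.qCoeff g ℓ :=
    fun ℓ hℓ hℓM hℓS => EigenCharOn.eigenCharOn_T _ hg.1 hℓ hℓM hℓS
  have hfin : Module.Finite ℤ chig.range := EigenCharOn.finite_range_of_heckeAlgebra chig
  have hint : ∀ x : chig.range, IsIntegral ℤ (x : ℂ) := fun x => by
    have h1 : IsIntegral ℤ x := Algebra.IsIntegral.isIntegral x
    exact h1.map chig.range.subtype.toIntAlgHom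
  let j : chig.range →+* integralClosure ℤ ℂ := chig.range.subtype.codRestrict
    (integralClosure ℤ ℂ).toSubring fun x => hint x
  have hj : ∀ x : chig.range, ((j x : integralClosure ℤ ℂ) : ℂ) = x := fun x => rfl
  let 𝔫 : Ideal chig.range := 𝔪.comap j
  have hp𝔫 : (p : chig.range) ∈ 𝔫 := by
    rw [Ideal.mem_comap, map_natCast]; exact hp𝔪
  have h𝔫 : 𝔫.IsMaximal := isMaximal_comap j h𝔪 hp𝔪
  have htf : Module.IsTorsionFree ℤ chig.range := inferInstance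
  obtain ⟨O', i1, i2, i3, i4, i5, i6, i7, i8, i9, hinj, hpO, iota, hiota, -⟩ :=
    OrderDVR.exists_dvr_of_order p chig.range 𝔫 hp𝔫
  obtain ⟨O'', j1, j2, j3, j4, j5, j6, j7, j8, j9, hinj', ρ, hρ, hρq⟩ :=
    DR.S35.s35Prop hg p S O' hpO chig hchig iota hpS hDS
  obtain ⟨ρE, hE⟩ := exists_residual (p := p) hΔ
  have hpO'' : (p : O'') ∈ maximalIdeal O'' := by
    have h4 := map_nonunit (algebraMap O' O'') _ hpO
    rwa [map_natCast] at h4
  have hchar : CharP (ResidueField O'') p := by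
    refine (CharP.charP_iff_prime_eq_zero hp.out).mpr ?_
    rw [← map_natCast (residue O''), residue_eq_zero_iff]
    exact hpO''
  let ψ : ZMod p →+* ResidueField O'' := ZMod.castHom (dvd_refl p) _
  have hcp : ∀ σ : Γℚ, (LinearMap.charpoly (ρ.residual.ρ σ)).map (RingHom.id _) =
      (LinearMap.charpoly (ρE.ρ σ)).map ψ := by
    refine FrobCompare.residual_charpoly_map_eq EllRed.frobDensity _ ψ ρ.residual ρE
      (E ∪ D.primeFactors) ?_
    intro ℓ hℓ hℓE' A hA σ hσ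
    rw [Finset.mem_union, not_or] at hℓE'
    obtain ⟨hℓE, hℓD'⟩ := hℓE'
    have hℓD : ¬ ℓ ∣ D := fun h => hℓD' (Nat.mem_primeFactors.mpr ⟨hℓ, h, hD0⟩)
    obtain ⟨a, ha, hmem⟩ := hgE ℓ hℓ hℓE
    simp only [E, Finset.mem_union, Finset.mem_singleton, Nat.mem_primeFactors, not_or, hℓ,
      true_and, not_and, Ne, not_not] at hℓE
    obtain ⟨⟨-, h2⟩, h3⟩ := hℓE
    have hgood : W.IsGoodPrimeFor ℓ := fun h => hΔ (Int.natAbs_eq_zero.mp (h2 (Int.natCast_dvd.mp h)))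
    have hℓS : ℓ ∉ (↑S : Set ℕ) := by
      intro h
      rcases Finset.mem_insert.mp (Finset.mem_coe.mp h) with h | h
      · exact h3 h
      · exact hℓD' h
    have h5 : iota.comp chig.rangeRestrict (CuspForm.heckeAlgebra.T hℓ hℓD hℓS) -
        ((W.apOfModel ℓ : ℤ) : O') ∈ maximalIdeal O' := by
      have h6 : chig.rangeRestrict (CuspForm.heckeAlgebra.T hℓ hℓD hℓS) -
          ((W.apOfModel ℓ : ℤ) : chig.range) ∈ 𝔫 := by
        rw [Ideal.mem_comap, map_sub, map_intCast]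
        convert hmem using 2
        apply Subtype.ext
        rw [hj, ha]
        exact hchig ℓ hℓ hℓD hℓS
      rw [← hiota, Ideal.mem_comap, map_sub, map_intCast] at h6
      exact h6
    have h7 : algebraMap O' O'' (iota.comp chig.rangeRestrict
        (CuspForm.heckeAlgebra.T hℓ hℓD hℓS)) - ((W.apOfModel ℓ : ℤ) : O'') ∈
        maximalIdeal O'' := by
      have h8 := map_nonunit (algebraMap O' O'') _ h5
      rwa [map_sub, map_intCast] at h8
    have h9 := (residue_eq_zero_iff _).mpr h7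
    rw [map_sub, map_intCast, sub_eq_zero] at h9
    rw [Polynomial.map_id, charpoly_residual, hρ ℓ hℓ hℓD hℓS A hA σ hσ,
      hE ℓ hℓ h3 hgood A hA σ hσ, map_quad, Polynomial.map_add, Polynomial.map_sub,
      Polynomial.map_mul, Polynomial.map_pow, Polynomial.map_X, Polynomial.map_C,
      Polynomial.map_C, h9, map_natCast]
  obtain ⟨A, hA⟩ := FrobExists.exists_liesOverPrime (AlgebraicClosure ℚ) hr
  obtain ⟨σ, hσ⟩ := FrobExists.exists_isFrobeniusAt A hr hA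
  have h1 := hcp σ
  rw [Polynomial.map_id, charpoly_residual, hE r hr hrp hrW A hA σ hσ, map_quad] at h1
  have hsq : ((W.apOfModel r : ℤ) : ResidueField O'') ^ 2 = ((r : ResidueField O'') + 1) ^ 2 := by
    rcases hρq r hr hrp hrD hr2D A hA σ hσ with h | h
    · rw [h, Polynomial.map_add, Polynomial.map_sub, Polynomial.map_mul, Polynomial.map_pow,
        Polynomial.map_X, Polynomial.map_C, Polynomial.map_C, map_natCast] at h1
      rw [← eq_of_quad h1, map_add, map_natCast, map_one]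
    · rw [h, Polynomial.map_add, Polynomial.map_add, Polynomial.map_mul, Polynomial.map_pow,
        Polynomial.map_X, Polynomial.map_C, Polynomial.map_C, map_natCast] at h1
      have h2 : (X ^ 2 - C (-(residue O'' ((r : O'') + 1))) * X + C (r : ResidueField O'') :
          (ResidueField O'')[X]) = X ^ 2 - C ((W.apOfModel r : ℤ) : ResidueField O'') * X +
            C (r : ResidueField O'') := by
        rw [← h1, C_neg]; ring
      rw [← eq_of_quad h2, map_add, map_natCast, map_one, neg_sq]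
  apply haux
  apply ψ.injective
  rw [map_pow, map_pow, map_add, map_one, map_intCast, map_natCast]
  exact hsq

end Fermat.Agent.DR.S38
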