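import Fermat.Agent.DR.S38.Statement
import Fermat.Agent.DR.Mazur.OfGeo

/-!
# `MazurInputs` from the modular specialisation lemma at rigid levels
-/

set_option autoImplicit false

namespace Fermat.Agent.DR.S38

/-- **The inputs of S38 at rigid levels** from the geometric input with `E = 1`. -/
theorem mazurInputs_of_geo
    (h : ∀ (M q : ℕ) [NeZero M] [NeZero q], DR.S36.Rigid M → Mazur.GeoInputE 1 M q) :
    MazurInputs := by
  intro M q p i1 i2 S hq hp _ hrig hqp hqM _ hS
  have i3 : NeZero q := ⟨hq.ne_zero⟩
  refine Mazur.mazurInput_of_geo (h M q hrig) hq hp ?_ hqp hqM hS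
  intro h1
  exact hp.one_lt.ne' (by exact_mod_cast Int.eq_one_of_dvd_one (by positivity) h1)

end Fermat.Agent.DR.S38
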