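import Fermat.Agent.DR.Mod.SpecGeo
import Fermat.Agent.DR.S38.OfGeo

/-!
# `MazurInputs`
-/

set_option autoImplicit false

namespace Fermat.Agent.DR.S38

/-- **The inputs of S38**: the geometric input of Mazur's principle at rigid levels. -/
theorem mazurInputs : MazurInputs :=
  mazurInputs_of_geo fun M q _ _ hrig => Mod.geoInputE_one M q hrig

end Fermat.Agent.DR.S38
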