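import Fermat.Agent.DR.S38.AuxRemove
import Fermat.Agent.DR.AuxPrime
import Fermat.Agent.DR.Mazur.Assembly
import Fermat.Agent.DR.S36.Numerics
import Fermat.Agent.Descent.Modular

/-!
# S38 from Mazur's principle, the existence of auxiliary primes and the scalar case
-/

set_option autoImplicit false

open WeierstrassCurve WeierstrassCurve.Affine WeierstrassCurve.Affine.Point
open scoped WeierstrassCurve.Affine

namespace Fermat.Agent.DR.S38

open Fermat.Agent.Descent Fermat.Agent.DR.Mazur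

theorem rigid_of_prime {r : ℕ} (hr : r.Prime) (h12 : r % 12 = 11) {N : ℕ} (h : r ∣ N) :
    DR.S36.Rigid N := by
  have : Fact r.Prime := ⟨hr⟩
  constructor
  · refine DR.S36.nuTwo_eq_zero_of h fun x hx => ?_
    have h1 : IsSquare (-1 : ZMod r) := ⟨x, by linear_combination -hx⟩
    rw [ZMod.exists_sq_eq_neg_one_iff] at h1
    omega
  · refine DR.S36.nuThree_eq_zero_of h fun x hx => ?_
    have h3 : x ^ 3 = 1 := by linear_combination (x - 1) * hx
    have hx1 : x ≠ 1 := by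
      rintro rfl
      have h4 : ((3 : ℕ) : ZMod r) = 0 := by push_cast; linear_combination hx
      rw [ZMod.natCast_eq_zero_iff] at h4
      have := Nat.le_of_dvd (by norm_num) h4
      interval_cases r <;> omega
    have h5 : orderOf x = 3 := orderOf_eq_prime h3 hx1
    have hx0 : x ≠ 0 := by
      rintro rfl
      norm_num at hx
    have h6 : orderOf x ∣ r - 1 := orderOf_dvd_of_pow_eq_one (ZMod.pow_card_sub_one_eq_one hx0)
    rw [h5] at h6
    have := hr.two_le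
    omega

/-- The geometric input of Mazur's principle, at rigid levels only. -/
def MazurInputs : Prop :=
  ∀ (M q p : ℕ) [NeZero M] [NeZero (M * q)] (S : Finset ℕ), q.Prime → p.Prime → p ≠ 2 →
    DR.S36.Rigid M → q ≠ p → ¬ q ∣ M → p ∈ S → (∀ r : ℕ, r.Prime → r ∣ M * q → r ∈ S) →
    MazurInput M q p S

/-- Existence of auxiliary primes. -/
def AuxExists : Prop :=
  ∀ (p : ℕ) [Fact p.Prime] (_ : p ≠ 2) (W : WeierstrassCurve ℤ) (_ : W.Δ ≠ 0)
    (_ : W.IsSemistableModel) (_ : W.ModRepIsIrreducible p) (D : ℕ) (_ : D ≠ 0),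
    ∃ r : ℕ, r.Prime ∧ r % 12 = 11 ∧ ¬ r ∣ D ∧
      ((W.apOfModel r : ℤ) : ZMod p) ^ 2 ≠ ((r : ZMod p) + 1) ^ 2

theorem auxExists : AuxExists := by
  intro p hp hp2 W hΔ hW hirr D hD
  obtain ⟨r, hr, hrS, h12, hgood, haux⟩ :=
    AuxPrime.exists_aux_prime hΔ hW hp.out hp2 hirr D.primeFactors
  refine ⟨r, hr, h12, fun h => hrS (Nat.mem_primeFactors.mpr ⟨hr, h, hD⟩), fun h => haux ?_⟩
  rw [← sub_eq_zero] at h
  rw [← ZMod.intCast_zmod_eq_zero_iff_dvd]
  push_cast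
  exact h

/-- The prime `q` is a scalar prime for `E[p]`. -/
def IsScalar {p : ℕ} [Fact p.Prime] (ρ : ResidualGaloisRep (ZMod p)) (q : ℕ) : Prop :=
  (q : ZMod p) = 1 ∧ ∀ B : ValuationSubring (AlgebraicClosure ℚ), B.LiesOverPrime q →
    ∀ φ : AlgebraicClosure ℚ ≃ₐ[ℚ] AlgebraicClosure ℚ, B.IsFrobeniusAt φ q →
      ∃ c : ZMod p, ρ.ρ φ = c • (1 : Module.End (ZMod p) ρ.V)

/-- **The scalar case**: let `M` be squarefree and minimal for divisibility among the levels at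
which `E[p]` is modular, and suppose that all the primes `r ∣ M`, `r ≠ p`, at which `E[p]` is
unramified are scalar, and that `E[p]` is not peu ramifiée at `p` if `p ∣ M`. Then there is no such
prime. -/
def ScalarGen : Prop :=
  ∀ (p : ℕ) [Fact p.Prime] (_ : p ≠ 2) (W : WeierstrassCurve ℤ) (_ : W.Δ ≠ 0)
    (_ : W.IsSemistableModel)
    (hcard : Nat.card (Submodule.torsionBy ℤ
      ((W.map (Int.castRingHom ℚ))⁄(AlgebraicClosure ℚ)).Point p) = p ^ 2)
    (hker : GaloisFactorsThroughFiniteLevel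
      (WeierstrassCurve.Affine.Point.galoisRepModuleEnd (K := AlgebraicClosure ℚ) ℚ
        (W.map (Int.castRingHom ℚ)) p))
    (_ : W.ModRepIsIrreducible p) (M q : ℕ) (_ : Squarefree M) (_ : q.Prime) (_ : q ≠ p)
    (_ : q ∣ M) (_ : p ∣ M → ¬ (W.map (Int.castRingHom ℚ)).IsPeuRamifieeAt p p)
    (_ : ((W.map (Int.castRingHom ℚ)).residualGaloisRepOf p hcard hker).IsUnramifiedAt q)
    (_ : W.IsResiduallyModularOfLevel p M)
    (_ : ∀ M' : ℕ, M' ∣ M → W.IsResiduallyModularOfLevel p M' → M' = M)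
    (_ : ∀ r : ℕ, r.Prime → r ∣ M → r ≠ p →
      ((W.map (Int.castRingHom ℚ)).residualGaloisRepOf p hcard hker).IsUnramifiedAt r →
      IsScalar ((W.map (Int.castRingHom ℚ)).residualGaloisRepOf p hcard hker) r), False

/-- **Mazur's principle**, all inputs but the geometric one discharged. -/
theorem mazur_all (hMI : MazurInputs) (p : ℕ) [hp : Fact p.Prime] (hp2 : p ≠ 2)
    (W : WeierstrassCurve ℤ) (hΔ : W.Δ ≠ 0) (hW : W.IsSemistableModel)
    (hcard : Nat.card (Submodule.torsionBy ℤ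
      ((W.map (Int.castRingHom ℚ))⁄(AlgebraicClosure ℚ)).Point p) = p ^ 2)
    (hker : GaloisFactorsThroughFiniteLevel
      (WeierstrassCurve.Affine.Point.galoisRepModuleEnd (K := AlgebraicClosure ℚ) ℚ
        (W.map (Int.castRingHom ℚ)) p))
    (hirr : W.ModRepIsIrreducible p) (M q : ℕ) (hM : M ≠ 0) (hq : q.Prime) (hqp : q ≠ p)
    (hqM : ¬ q ∣ M)
    (hunr : ((W.map (Int.castRingHom ℚ)).residualGaloisRepOf p hcard hker).IsUnramifiedAt q)
    (hres : W.IsResiduallyModularOfLevel p (M * q)) :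
    W.IsResiduallyModularOfLevel p M ∨
      IsScalar ((W.map (Int.castRingHom ℚ)).residualGaloisRepOf p hcard hker) q := by
  have hD : M * q * p * W.Δ.natAbs ≠ 0 :=
    mul_ne_zero (mul_ne_zero (mul_ne_zero hM hq.ne_zero) hp.out.ne_zero)
      (Int.natAbs_ne_zero.mpr hΔ)
  obtain ⟨r, hr, hr12, hrD, haux⟩ := auxExists p hp2 W hΔ hW hirr _ hD
  have hrM : ¬ r ∣ M := fun h => hrD (((h.mul_right q).mul_right p).mul_right _)
  have hrq : r ≠ q := fun h => hrD (((Dvd.intro_left M (h ▸ rfl)).mul_right p).mul_right _)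
  have hrp : r ≠ p := fun h => hrD ((Dvd.intro_left (M * q) (h ▸ rfl)).mul_right _)
  have hrΔ : W.IsGoodPrimeFor r := fun h => hrD ((Int.natCast_dvd.mp h).mul_left _)
  have hMr : M * r ≠ 0 := mul_ne_zero hM hr.ne_zero
  have i1 : NeZero (M * r) := ⟨hMr⟩
  have i2 : NeZero (M * r * q) := ⟨mul_ne_zero hMr hq.ne_zero⟩
  have hqMr : ¬ q ∣ M * r := by
    intro h
    rcases hq.dvd_mul.mp h with h | h
    · exact hqM h
    · exact hrq ((Nat.prime_dvd_prime_iff_eq hq hr).mp h).symm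
  have hres' : W.IsResiduallyModularOfLevel p (M * r * q) :=
    Oldform.isResiduallyModularOfLevel_of_dvd (NeZero.ne _) ⟨r, by ring⟩ hres
  have hrig : DR.S36.Rigid (M * r) := rigid_of_prime hr hr12 (dvd_mul_left r M)
  rcases mazurGen DR.allInputs hp2 W hΔ hcard hker hirr hq hqp
    (fun S hpS hNS => hMI (M * r) q p S hq hp.out hp2 hrig hqp hqMr hpS hNS) hunr hres' with h | h
  · exact Or.inl (remove_aux hΔ hM hr hrM hrp hrΔ haux h)
  · exact Or.inr h

/-- **S38 from its inputs.** -/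
theorem s38_of (hMI : MazurInputs) (h39 : S39Prop) (hS : ScalarGen) : S38Prop := by
  intro p hp hp2 W hΔ hW hcard hker hirr M q hq hqp hqM hq2 hM hunr hres
  classical
  -- a minimal level dividing `M`
  obtain ⟨M₀, hM₀M, hM₀, hmin⟩ : ∃ M₀ : ℕ, M₀ ∣ M ∧ W.IsResiduallyModularOfLevel p M₀ ∧
      ∀ M' : ℕ, M' ∣ M₀ → W.IsResiduallyModularOfLevel p M' → M' = M₀ := by
    let s : Finset ℕ := M.divisors.filter fun M => W.IsResiduallyModularOfLevel p M
    have hs : s.Nonempty := ⟨M, by simp [s, hM.ne_zero, hres]⟩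
    obtain ⟨M₀, hM₀s, hM₀min⟩ := s.exists_min_image id hs
    have hM₀' := Finset.mem_filter.mp hM₀s
    refine ⟨M₀, Nat.dvd_of_mem_divisors hM₀'.1, hM₀'.2, fun M' hM'M₀ hM' => ?_⟩
    have hM'M : M' ∣ M := hM'M₀.trans (Nat.dvd_of_mem_divisors hM₀'.1)
    have hM₀pos : 0 < M₀ := Nat.pos_of_mem_divisors hM₀'.1
    have hM's : M' ∈ s := by
      simp only [s, Finset.mem_filter, Nat.mem_divisors]
      exact ⟨⟨hM'M, hM.ne_zero⟩, hM'⟩
    exact le_antisymm (Nat.le_of_dvd hM₀pos hM'M₀) (hM₀min M' hM's)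
  have hdiv : M / q ≠ 0 := (Nat.div_pos (Nat.le_of_dvd (Nat.pos_of_ne_zero hM.ne_zero) hqM)
    hq.pos).ne'
  by_cases hqM₀ : q ∣ M₀
  swap
  · refine Oldform.isResiduallyModularOfLevel_of_dvd hdiv ?_ hM₀
    obtain ⟨c, hc⟩ := hqM
    rw [hc, Nat.mul_div_cancel_left _ hq.pos]
    rw [hc] at hM₀M
    exact Nat.Coprime.dvd_of_dvd_mul_left ((Nat.Prime.coprime_iff_not_dvd hq).mpr hqM₀).symm hM₀M
  exfalso
  have hsq : Squarefree M₀ := hM.squarefree_of_dvd hM₀M
  have hpeu : p ∣ M₀ → ¬ (W.map (Int.castRingHom ℚ)).IsPeuRamifieeAt p p := by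
    rintro ⟨c, rfl⟩ hpeu
    have hc0 : c ≠ 0 := fun h => hsq.ne_zero (by rw [h, mul_zero])
    have h1 := h39 W hΔ hp.out hp2 hW hirr hpeu (Nat.pos_of_ne_zero hsq.ne_zero)
      (dvd_mul_right p c) (fun h => hp.out.not_isUnit (hsq p (by rwa [← sq]))) hM₀
    rw [Nat.mul_div_cancel_left _ hp.out.pos] at h1
    have h2 := hmin c (Dvd.intro_left _ rfl) h1
    have h3 : 1 * c = p * c := by rw [one_mul]; exact h2
    exact hp.out.one_lt.ne (Nat.eq_of_mul_eq_mul_right (Nat.pos_of_ne_zero hc0) h3)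
  refine hS p hp2 W hΔ hW hcard hker hirr M₀ q hsq hq hqp hqM₀ hpeu hunr hM₀ hmin ?_
  intro r hr hrM₀ hrp hunrr
  obtain ⟨c, rfl⟩ := hrM₀
  rw [mul_comm r c] at *
  have hc0 : c ≠ 0 := fun h => hsq.ne_zero (by rw [h, zero_mul])
  have hrc : ¬ r ∣ c := by
    rintro ⟨d, rfl⟩
    exact hr.not_isUnit (hsq r ⟨d, by ring⟩)
  rcases mazur_all hMI p hp2 W hΔ hW hcard hker hirr c r hc0 hr hrp hrc hunrr hM₀ with h | h
  · exfalso
    have h1 := hmin c (Dvd.intro _ rfl) h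
    have h2 : c * 1 = c * r := by rw [mul_one]; exact h1
    exact hr.one_lt.ne (Nat.eq_of_mul_eq_mul_left (Nat.pos_of_ne_zero hc0) h2)
  · exact h

end Fermat.Agent.DR.S38
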